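import Fermat.Agent.S43.Tame.Tower
import Fermat.Agent.S36.StepA.InertiaTrans
import Fermat.Agent.GAL.Cyclo
import Fermat.Agent.PT.Bridge.Levels
import Fermat.Agent.PT.Local.Dict

/-!
# S43 / Tame / Main : the tame structure of inertia at `ℓ ≠ p` in a finite `p`-group quotient

`f : G_ℚ →* G'` smooth, the image of the inertia group `I` at `P ∣ ℓ` a `p`-group (`ℓ ≠ p`).  Then there is `σ ∈ I` with
* `f(I)` is generated by `f σ`  (`f τ = f σ ^ j`);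
* `f (φ σ φ⁻¹) = f σ ^ ℓ` for every Frobenius element `φ` at `P`.

`tame_module` : the same for a `G_ℚ`-module `X`.
-/

set_option autoImplicit false

open ExtCitation
open scoped Pointwise

namespace Fermat.Agent.S43.Tame

open Fermat.Agent.PT Fermat.Agent.S56.Lq Fermat.Agent.GAL
open Fermat.Agent.PT.Local (Qb Plc li lg lf IsUnif Fld)

variable {p : ℕ} [Fact p.Prime] (P : Plc)

/-- inertia at `ℓ` fixes the roots of unity of order prime to `ℓ`. -/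
theorem inertia_root {n : ℕ} (hn : ¬ P.ℓ ∣ n) {τ : GQ} (hτ : τ ∈ P.ine) {z : Qb} (hz : z ^ n = 1) :
    τ z = z := by
  have hn0 : n ≠ 0 := by rintro rfl; exact hn (dvd_zero _)
  have hzA : z ∈ P.A := Cyclo.mem_of_pow_eq_one P.A hn0 hz
  exact Cyclo.eq_of_sub_mem_nonunits P.A P.prime P.liesOver hn (by rw [← map_pow, hz, map_one]) hz
    (Cyclo.sub_mem_of_mem_inertia hτ hzA)

/-- a Frobenius element raises the roots of unity of order prime to `ℓ` to the `ℓ`-th power. -/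
theorem frobenius_root {n : ℕ} (hn : ¬ P.ℓ ∣ n) {φ : GQ} (hφ : P.A.IsFrobeniusAt φ P.ℓ) {z : Qb}
    (hz : z ^ n = 1) : φ z = z ^ P.ℓ := by
  have hn0 : n ≠ 0 := by rintro rfl; exact hn (dvd_zero _)
  have hzA : z ∈ P.A := Cyclo.mem_of_pow_eq_one P.A hn0 hz
  refine Cyclo.eq_of_sub_mem_nonunits P.A P.prime P.liesOver hn ?_ ?_
    (Cyclo.sub_pow_mem_of_isFrobeniusAt hφ hzA)
  · rw [← map_pow, hz, map_one]
  · rw [← pow_mul, mul_comm, pow_mul, hz, one_pow]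

theorem pow_apply_of_mul {σ : GQ} {ζ ϖ : Qb} (h1 : σ ζ = ζ) (h2 : σ ϖ = ζ * ϖ) (j : ℕ) :
    (σ ^ j) ϖ = ζ ^ j * ϖ := by
  induction j with
  | zero => simp
  | succ j ih =>
    rw [pow_succ', AlgEquiv.mul_apply, ih, map_mul, map_pow, h1, h2]
    ring

/-- conjugation by an element of the decomposition group preserves the inertia group. -/
theorem conj_mem_ine {φ σ : GQ} (hφ : φ ∈ P.dec) (hσ : σ ∈ P.ine) : φ * σ * φ⁻¹ ∈ P.ine := by
  have h := Levels_conj_mem_inertiaSubgroupIn (K := ℚ) P.A φ σ hσ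
  have h2 : φ • P.A = P.A := hφ
  rwa [h2] at h

/-- **The tame structure**, group form. -/
theorem tame_hom (hℓ : P.ℓ ≠ p) {G' : Type*} [Group G'] (f : GQ →* G')
    (hs : ∃ U ∈ Lall, ∀ u ∈ U, f u = 1) [Finite (P.ine.map f)] (hpg : IsPGroup p (P.ine.map f)) :
    ∃ σ ∈ P.ine, (∀ τ ∈ P.ine, ∃ j : ℕ, f τ = f σ ^ j) ∧
      ∀ φ : GQ, P.A.IsFrobeniusAt φ P.ℓ → f (φ * σ * φ⁻¹) = f σ ^ P.ℓ := by
  have hp : p.Prime := Fact.out
  obtain ⟨m, hm⟩ := IsPGroup.iff_card.1 hpg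
  have hpm : 0 < p ^ m := pow_pos hp.pos m
  have hnd : ¬ P.ℓ ∣ p ^ m := fun h =>
    hℓ ((Nat.prime_dvd_prime_iff_eq P.prime hp).1 (P.prime.dvd_of_dvd_pow h))
  obtain ⟨ϖ, hϖ⟩ := IsAlgClosed.exists_pow_nat_eq (P.ℓ : Qb) hpm
  have hϖ0 : ϖ ≠ 0 := by
    rintro rfl
    rw [zero_pow hpm.ne'] at hϖ
    exact P.prime.ne_zero (by exact_mod_cast hϖ.symm)
  have : NeZero ((p ^ m : ℕ) : Qb) := ⟨Nat.cast_ne_zero.2 hpm.ne'⟩
  obtain ⟨ζ, hζ⟩ := HasEnoughRootsOfUnity.exists_primitiveRoot Qb (p ^ m)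
  have : NeZero (p ^ m) := ⟨hpm.ne'⟩
  obtain ⟨σ, hσ, hσϖ⟩ := Fermat.Agent.S36.StepA.exists_inertia_map_root P.A P.prime P.liesOver hpm
    (ϖ := ϖ) (ϖ' := ζ * ϖ) hϖ (by rw [mul_pow, hζ.pow_eq_one, one_mul, hϖ])
  have hσζ : σ ζ = ζ := inertia_root P hnd hσ hζ.pow_eq_one
  have key : ∀ τ ∈ P.ine, ∀ j : ℕ, τ ϖ = ζ ^ j * ϖ → f τ = f σ ^ j := by
    intro τ hτ j h
    have h1 : ((σ ^ j)⁻¹ * τ) ϖ = ϖ := by
      rw [AlgEquiv.mul_apply, h, ← pow_apply_of_mul hσζ hσϖ j, ← AlgEquiv.mul_apply,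
        inv_mul_cancel, AlgEquiv.one_apply]
    have h2 := tower_bot P hℓ f hs m ϖ hϖ (P.ine.map f) (by rw [hm])
      (fun τ hτ => Subgroup.mem_map_of_mem f hτ) _
      (mul_mem (inv_mem (pow_mem hσ j)) hτ) h1
    rw [map_mul, map_inv, map_pow, inv_mul_eq_one] at h2
    exact h2.symm
  refine ⟨σ, hσ, fun τ hτ => ?_, fun φ hφ => ?_⟩
  · have h1 : (τ ϖ / ϖ) ^ (p ^ m) = 1 := by
      rw [div_pow, ← map_pow, hϖ, map_natCast, div_self]
      exact Nat.cast_ne_zero.2 P.prime.ne_zero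
    obtain ⟨j, -, hj⟩ := hζ.eq_pow_of_pow_eq_one h1
    exact ⟨j, key τ hτ j (by rw [hj, div_mul_cancel₀ _ hϖ0])⟩
  · refine key _ (conj_mem_ine P hφ.mem_decompositionSubgroup hσ) _ ?_
    set ϖ' : Qb := φ⁻¹ ϖ with hϖ'
    have hφϖ' : φ ϖ' = ϖ := by
      rw [hϖ', ← AlgEquiv.mul_apply, mul_inv_cancel, AlgEquiv.one_apply]
    have h1 : (ϖ' / ϖ) ^ (p ^ m) = 1 := by
      rw [div_pow, hϖ', ← map_pow, hϖ, map_natCast, div_self]
      exact Nat.cast_ne_zero.2 P.prime.ne_zero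
    have h2 : σ (ϖ' / ϖ) = ϖ' / ϖ := inertia_root P hnd hσ h1
    have h3 : σ ϖ' = ζ * ϖ' := by
      have e : ϖ' = (ϖ' / ϖ) * ϖ := (div_mul_cancel₀ _ hϖ0).symm
      conv_lhs => rw [e]
      rw [map_mul, h2, hσϖ]
      field_simp
    rw [AlgEquiv.mul_apply, AlgEquiv.mul_apply, ← hϖ', h3, map_mul, hφϖ',
      frobenius_root P hnd hφ hζ.pow_eq_one]

end Fermat.Agent.S43.Tame
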