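import Mathlib

/-!
# S43 / Tame / Grp : a nontrivial finite `p`-group has a character of order `p` (pure group theory)
-/

set_option autoImplicit false

namespace Fermat.Agent.S43.Tame

/-- A nontrivial finite `p`-group `H` (of order dividing `p ^ (m+1)`) has a homomorphism to `ℤ/p` whose kernel has order
dividing `p ^ m`. -/
theorem exists_char (p : ℕ) [Fact p.Prime] {H : Type*} [Group H] [Finite H] (m : ℕ)
    (hcard : Nat.card H ∣ p ^ (m + 1)) (hne : Nontrivial H) :
    ∃ χ : H →* Multiplicative (ZMod p), Nat.card χ.ker ∣ p ^ m := by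
  have hp : p.Prime := Fact.out
  obtain ⟨k, hk, hkc⟩ := (Nat.dvd_prime_pow hp).1 hcard
  have hk0 : k ≠ 0 := by
    rintro rfl
    rw [pow_zero] at hkc
    have := Finite.one_lt_card (α := H)
    omega
  obtain ⟨k', rfl⟩ := Nat.exists_eq_succ_of_ne_zero hk0
  obtain ⟨N, hN⟩ := Sylow.exists_subgroup_card_pow_prime p (G := H) (n := k')
    (by rw [hkc]; exact pow_dvd_pow p (Nat.le_succ k'))
  have hidx : N.index = p := by
    have h1 := N.card_mul_index
    rw [hN, hkc, pow_succ] at h1
    exact Nat.eq_of_mul_eq_mul_left (pow_pos hp.pos k') h1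
  have hmin : (Nat.card H).minFac = p := by
    rw [hkc, Nat.pow_minFac (Nat.succ_ne_zero k'), hp.minFac_eq]
  have hnorm : N.Normal := Subgroup.normal_of_index_eq_minFac_card (by rw [hidx, hmin])
  have hq : Nat.card (H ⧸ N) = p := by rw [← Subgroup.index_eq_card, hidx]
  have hcyc : IsCyclic (H ⧸ N) := isCyclic_of_prime_card hq
  let e : Multiplicative (ZMod (Nat.card (H ⧸ N))) ≃* (H ⧸ N) := zmodCyclicMulEquiv hcyc
  let e2 : Multiplicative (ZMod (Nat.card (H ⧸ N))) ≃* Multiplicative (ZMod p) :=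
    AddEquiv.toMultiplicative (ZMod.ringEquivCongr hq).toAddEquiv
  refine ⟨(e2.toMonoidHom.comp e.symm.toMonoidHom).comp (QuotientGroup.mk' N), ?_⟩
  have hker : ((e2.toMonoidHom.comp e.symm.toMonoidHom).comp (QuotientGroup.mk' N)).ker = N := by
    ext x
    rw [MonoidHom.mem_ker]
    simp only [MonoidHom.comp_apply, MulEquiv.coe_toMonoidHom, QuotientGroup.mk'_apply]
    rw [MulEquiv.map_eq_one_iff, MulEquiv.map_eq_one_iff, QuotientGroup.eq_one_iff]
  rw [hker, hN]
  exact pow_dvd_pow p (by omega)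

end Fermat.Agent.S43.Tame
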