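import Fermat.Agent.S43.Tame.Main

/-!
# S43 / Tame / Module : the tame structure of inertia on a `G_ℚ`-set / a stable subset of a `G_ℚ`-module

`tame_mulAction` : `X` a `G_ℚ`-set on which an open subgroup acts trivially and on which every element of the inertia group `I` at
`A ∣ s` has `p`-power order (`s ≠ p`).  Then there is `σ ∈ I` such that every `τ ∈ I` acts as a power of `σ`, and
`φ σ φ⁻¹` acts as `σ ^ s` for every Frobenius element `φ` at `A`.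

`tame_sub` : the same for a stable subset `Y` of a `G_ℚ`-set.
-/

set_option autoImplicit false

namespace Fermat.Agent.S43.Tame

open Fermat.Agent.PT
open Fermat.Agent.PT.Local (Qb Plc)

theorem tame_mulAction (A : ValuationSubring Qb) {s p : ℕ} (hs : s.Prime) [Fact p.Prime]
    (hA : A.LiesOverPrime s) (hsp : s ≠ p) {X : Type*} [MulAction GQ X]
    (hsm : ∃ F : IntermediateField ℚ Qb, FiniteDimensional ℚ F ∧
      ∀ g : GQ, (∀ y ∈ F, g y = y) → ∀ x : X, g • x = x)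
    (hpg : ∀ τ ∈ A.inertiaSubgroupIn ℚ, ∃ k : ℕ, ∀ x : X, (τ ^ (p ^ k)) • x = x) :
    ∃ σ ∈ A.inertiaSubgroupIn ℚ,
      (∀ τ ∈ A.inertiaSubgroupIn ℚ, ∃ j : ℕ, ∀ x : X, τ • x = σ ^ j • x) ∧
      ∀ φ : GQ, A.IsFrobeniusAt φ s → ∀ x : X, (φ * σ * φ⁻¹) • x = σ ^ s • x := by
  let P : Plc := ⟨A, s, hs, hA⟩
  let f : GQ →* Equiv.Perm X := MulAction.toPermHom GQ X
  have hf : ∀ g x, f g x = g • x := fun _ _ => rfl
  obtain ⟨F, hF, hFx⟩ := hsm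
  obtain ⟨U, hU, hUF⟩ := Local.isOpen_fixingSubgroup F
  have hs' : ∃ U ∈ Lall, ∀ u ∈ U, f u = 1 := by
    refine ⟨U, hU, fun u hu => ?_⟩
    ext x
    rw [hf, Equiv.Perm.one_apply]
    exact hFx u (fun y hy => (IntermediateField.mem_fixingSubgroup_iff F u).1 (hUF hu) y hy) x
  have hfin : Finite (P.ine.map f) := by
    obtain ⟨U, hU, h⟩ := hs'
    have hle : U ≤ f.ker := fun u hu => h u hu
    have h1 : U.FiniteIndex := Lall.finiteIndex' U hU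
    have h2 : f.ker.FiniteIndex := Subgroup.finiteIndex_of_le hle
    have h3 : Finite (GQ ⧸ f.ker) := inferInstance
    have h4 : Finite f.range := Finite.of_equiv _ (QuotientGroup.quotientKerEquivRange f).toEquiv
    have h5 : P.ine.map f ≤ f.range := by
      rintro _ ⟨g, -, rfl⟩
      exact ⟨g, rfl⟩
    exact Finite.of_injective (Subgroup.inclusion h5) (Subgroup.inclusion_injective h5)
  have hpg' : IsPGroup p (P.ine.map f) := by
    rintro ⟨_, τ, hτ, rfl⟩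
    obtain ⟨k, hk⟩ := hpg τ hτ
    refine ⟨k, Subtype.ext ?_⟩
    show f τ ^ (p ^ k) = 1
    rw [← map_pow]
    ext x
    rw [hf, hk, Equiv.Perm.one_apply]
  obtain ⟨σ, hσ, h1, h2⟩ := tame_hom P hsp f hs' hpg'
  refine ⟨σ, hσ, fun τ hτ => ?_, fun φ hφ x => ?_⟩
  · obtain ⟨j, hj⟩ := h1 τ hτ
    refine ⟨j, fun x => ?_⟩
    rw [← hf, hj, ← map_pow, hf]
  · rw [← hf, h2 φ hφ, ← map_pow, hf]

/-- the same for a stable subset. -/
theorem tame_sub (A : ValuationSubring Qb) {s p : ℕ} (hs : s.Prime) [Fact p.Prime]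
    (hA : A.LiesOverPrime s) (hsp : s ≠ p) {X : Type*} [MulAction GQ X] (Y : Set X)
    (hY : ∀ g : GQ, ∀ x ∈ Y, g • x ∈ Y)
    (hsm : ∃ F : IntermediateField ℚ Qb, FiniteDimensional ℚ F ∧
      ∀ g : GQ, (∀ y ∈ F, g y = y) → ∀ x ∈ Y, g • x = x)
    (hpg : ∀ τ ∈ A.inertiaSubgroupIn ℚ, ∃ k : ℕ, ∀ x ∈ Y, (τ ^ (p ^ k)) • x = x) :
    ∃ σ ∈ A.inertiaSubgroupIn ℚ,
      (∀ τ ∈ A.inertiaSubgroupIn ℚ, ∃ j : ℕ, ∀ x ∈ Y, τ • x = σ ^ j • x) ∧
      ∀ φ : GQ, A.IsFrobeniusAt φ s → ∀ x ∈ Y, (φ * σ * φ⁻¹) • x = σ ^ s • x := by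
  let Z : SubMulAction GQ X := ⟨Y, fun g x hx => hY g x hx⟩
  obtain ⟨F, hF, hFx⟩ := hsm
  obtain ⟨σ, hσ, h1, h2⟩ := tame_mulAction A hs hA hsp (X := Z)
    ⟨F, hF, fun g hg x => Subtype.ext (hFx g hg x.1 x.2)⟩
    (fun τ hτ => by
      obtain ⟨k, hk⟩ := hpg τ hτ
      exact ⟨k, fun x => Subtype.ext (hk x.1 x.2)⟩)
  refine ⟨σ, hσ, fun τ hτ => ?_, fun φ hφ x hx => ?_⟩
  · obtain ⟨j, hj⟩ := h1 τ hτ
    exact ⟨j, fun x hx => congrArg Subtype.val (hj ⟨x, hx⟩)⟩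
  · exact congrArg Subtype.val (h2 φ hφ ⟨x, hx⟩)

end Fermat.Agent.S43.Tame
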