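import Fermat.Agent.S43.Tame.Grp
import Fermat.Agent.S56.Lq.TameMain

/-!
# S43 / Tame / Tower : a smooth homomorphism from inertia at `ℓ ≠ p` to a finite `p`-group of order dividing `p ^ m`
kills every element fixing a `p ^ m`-th root of a uniformiser.
-/

set_option autoImplicit false

open ExtCitation

namespace Fermat.Agent.S43.Tame

open Fermat.Agent.PT Fermat.Agent.S56.Lq
open Fermat.Agent.PT.Local (Qb Plc li lg lf IsUnif Fld)
open Fermat.Agent.S36R.K0L (isUnif_ell li_bot lg_bot)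

variable {p : ℕ} [Fact p.Prime] (P : Plc)

/-- **The tower lemma.** -/
theorem tower (hℓ : P.ℓ ≠ p) {G' : Type*} [Group G'] (f : GQ →* G')
    (hs : ∃ U ∈ Lall, ∀ u ∈ U, f u = 1) :
    ∀ (m : ℕ) (K : Fld) [FiniteDimensional ℚ K], ((zetaP p : Qbarˣ) : Qbar) ∈ K →
      ∀ (π ϖ : Qb), IsUnif P K π → ϖ ^ (p ^ m) = π →
      ∀ (H : Subgroup G') [Finite H], Nat.card H ∣ p ^ m → (∀ τ ∈ li P K, f τ ∈ H) →
      ∀ τ ∈ li P K, τ ϖ = ϖ → f τ = 1 := by
  classical
  have hp : p.Prime := Fact.out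
  intro m
  induction m with
  | zero =>
    intro K _ _ π ϖ _ _ H _ hcard hH τ hτ _
    rw [pow_zero, Nat.dvd_one] at hcard
    have h1 : H = ⊥ := Subgroup.card_eq_one.1 hcard
    have h2 := hH τ hτ
    rw [h1, Subgroup.mem_bot] at h2
    exact h2
  | succ m ih =>
    intro K _ hζ π ϖ hπ hϖ H _ hcard hH τ hτ hτϖ
    by_cases hne : Nontrivial H
    · obtain ⟨χ, hχ⟩ := exists_char p m hcard hne
      set β : Qb := ϖ ^ (p ^ m) with hβdef
      have hβ : β ^ p = π := by rw [hβdef, ← pow_mul, ← pow_succ, hϖ]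
      have hπ0 : π ≠ 0 := hπ.ne_zero
      have hβ0 : β ≠ 0 := by
        intro h
        rw [h, zero_pow hp.ne_zero] at hβ
        exact hπ0 hβ.symm
      have hπfix : ∀ τ ∈ li P K, τ π = π := fun τ hτ =>
        (Local.mem_lf_iff P K π).1 hπ.1 τ (Local.li_le_lg P K hτ)
      -- the character
      let c : GQ → ZMod p := fun g =>
        if h : f g ∈ H then Multiplicative.toAdd (χ ⟨f g, h⟩) else 0
      have hc : ∀ g (h : f g ∈ H), c g = Multiplicative.toAdd (χ ⟨f g, h⟩) := fun g h => dif_pos h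
      have hcadd : ∀ σ ∈ li P K, ∀ τ ∈ li P K, c (σ * τ) = c σ + c τ := by
        intro σ hσ τ hτ
        rw [hc _ (hH _ (mul_mem hσ hτ)), hc _ (hH _ hσ), hc _ (hH _ hτ), ← toAdd_mul, ← map_mul]
        congr 2
        exact Subtype.ext (map_mul f σ τ)
      have hcs : SmoothOn1 Lall (li P K) c := by
        obtain ⟨U, hU, h⟩ := hs
        refine ⟨U, hU, fun v _ u _ hu => ?_⟩
        have e : f (v * u) = f v := by rw [map_mul, h u hu, mul_one]
        show (if h : f (v * u) ∈ H then _ else _) = (if h : f v ∈ H then _ else _)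
        simp only [e]
      obtain ⟨i, hi⟩ := tame_gen P K hℓ hπ hβ c hcs hcadd
      -- the next layer
      have hnext : ∀ τ ∈ li P (adj K β), f τ ∈ χ.ker.map H.subtype := by
        intro τ hτ
        obtain ⟨h1, h2⟩ := (mem_li_adj_iff P K β τ).1 hτ
        have h3 : c τ = 0 := by
          rw [hi τ h1, (kapR_eq_zero_iff hβ0 (by rw [hβ, hπfix τ h1])).2 h2, mul_zero]
        rw [hc _ (hH τ h1)] at h3
        exact ⟨⟨f τ, hH τ h1⟩, h3, rfl⟩
      have hfin : Finite (χ.ker.map H.subtype) := by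
        have : Finite ((χ.ker.map H.subtype : Subgroup G') : Set G') := by
          rw [Subgroup.coe_map]
          exact Set.Finite.image _ (Set.toFinite _)
        exact this
      have hcard' : Nat.card (χ.ker.map H.subtype) ∣ p ^ m := by
        rw [Subgroup.card_map_of_injective H.subtype_injective]
        exact hχ
      have hζ' : ((zetaP p : Qbarˣ) : Qbar) ∈ adj K β := (le_sup_left : K ≤ adj K β) hζ
      have hτβ : τ β = β := by rw [hβdef, map_pow, hτϖ]
      exact ih (adj K β) hζ' β ϖ (isUnif_adj P K hℓ hζ hπ hβ) rfl (χ.ker.map H.subtype) hcard'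
        hnext τ ((mem_li_adj_iff P K β τ).2 ⟨hτ, hτβ⟩) hτϖ
    · rw [not_nontrivial_iff_subsingleton] at hne
      have h2 := hH τ hτ
      have h3 : (⟨f τ, h2⟩ : H) = 1 := Subsingleton.elim _ _
      exact congrArg Subtype.val h3

/-- **The tower lemma over `ℚ`**: `f` kills the elements of the inertia group fixing a `p ^ m`-th root of `ℓ`. -/
theorem tower_bot (hℓ : P.ℓ ≠ p) {G' : Type*} [Group G'] (f : GQ →* G')
    (hs : ∃ U ∈ Lall, ∀ u ∈ U, f u = 1) (m : ℕ) (ϖ : Qb) (hϖ : ϖ ^ (p ^ m) = (P.ℓ : Qb))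
    (H : Subgroup G') [Finite H] (hcard : Nat.card H ∣ p ^ m) (hH : ∀ τ ∈ P.ine, f τ ∈ H)
    (τ : GQ) (hτ : τ ∈ P.ine) (hτϖ : τ ϖ = ϖ) : f τ = 1 := by
  have hp : p.Prime := Fact.out
  have hpos : 0 < p - 1 := Nat.sub_pos_of_lt hp.one_lt
  have hπ' : IsUnif P (Local.unr P ⊥ (p - 1)) (P.ℓ : Qb) :=
    Local.isUnif_unr P ⊥ hpos (isUnif_ell P)
  have hli : li P (Local.unr P ⊥ (p - 1)) = P.ine := by rw [Local.li_unr, li_bot]
  exact tower P hℓ f hs m (Local.unr P ⊥ (p - 1)) (zetaP_mem_unr P hℓ) _ ϖ hπ' hϖ H hcard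
    (fun τ hτ => hH τ (hli ▸ hτ)) τ (hli.symm ▸ hτ) hτϖ

end Fermat.Agent.S43.Tame
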